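import Mathlib
import Fermat.Agent.S41.H761.HKTransfer
import Fermat.Agent.S41.H761.CosetSystem2

/-!
# S59 / TW-HECKE (helper653), block CROSS: operators of coset systems and change of group

Abstract setting: groups `Γ' → Γ` (a homomorphism `c` realised by conjugation by `d ∈ 𝒢`,
`d * ι' g = ι (c g) * d`), ONE family of representatives `ρ : I → 𝒢` which is a coset system
for `Γ` and for `Γ'`.

* `transfer_comp_hom` : the operator of `ρ` commutes with the pull-back along `c`;
* `transfer_transferAlong` : the operator of `ρ` commutes with the transfer along `c`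
  (`c` injective with range of finite index).

Hypotheses: (H1) the conjugated representatives `d ρ_y d⁻¹` are representatives up to `Γ`;
(H2) a separation property.  This is the argument of `S41.H761.heckeTransfer_transferAlong`
(`Γ₀`-levels, `heckeRep`) for arbitrary groups and representatives.
-/

set_option autoImplicit false

namespace Fermat.Agent.S59.TW.H653.Cross

open Fermat.Agent.S41.Spec Fermat.Agent.S41.H761

variable {𝒢 Γ Γ' : Type*} [Group 𝒢] [Group Γ] [Group Γ'] {ι : Γ →* 𝒢} {ι' : Γ' →* 𝒢}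
  {I : Type*} [Fintype I] {ρ : I → 𝒢} {A : Type*} [AddCommGroup A]

/-- **Pull-back.**  The operator of `ρ` commutes with `φ ↦ φ ∘ c`. -/
theorem transfer_comp_hom (hι : Function.Injective ι) (sys : IsCosetSystem ι ι ρ)
    (sys' : IsCosetSystem ι' ι' ρ) (c : Γ' →* Γ) (d : 𝒢)
    (hd : ∀ g : Γ', d * ι' g = ι (c g) * d)
    (H1 : ∀ y : I, ∃ (u : Γ) (y' : I), d * ρ y * d⁻¹ = ι u * ρ y')
    (H2 : ∀ (y y' : I) (m : Γ), d * ρ y = ι m * (d * ρ y') → y = y')
    (φ : Additive Γ →+ A) :
    sys'.transfer (φ.comp (MonoidHom.toAdditive c)) =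
      (sys.transfer φ).comp (MonoidHom.toAdditive c) := by
  classical
  have S := IsCosetSystem.single (ι := ι) (ι' := ι') hι c d hd
  have famA : IsCosetSystem ι ι' (fun x : I × Unit => ρ x.1 * d) :=
    sys.prod S (by
      intro i i' _ _ g e
      refine ⟨sys.eq_of_mul i i' g ?_, rfl⟩
      have e' : ρ i * d = ι g * ρ i' * d := by rw [e, mul_assoc]
      exact mul_right_cancel e')
  have famB : IsCosetSystem ι ι' (fun x : Unit × I => d * ρ x.2) :=
    S.prod sys' (by
      intro _ _ j j' g e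
      exact ⟨rfl, H2 j j' g e⟩)
  have h1 : sys'.transfer (φ.comp (MonoidHom.toAdditive c)) = famB.transfer φ := by
    rw [← IsCosetSystem.single_transfer hι c d hd φ]
    exact IsCosetSystem.transfer_comp S sys' famB φ
  have h2 : (sys.transfer φ).comp (MonoidHom.toAdditive c) = famA.transfer φ := by
    rw [← IsCosetSystem.single_transfer hι c d hd (sys.transfer φ)]
    exact IsCosetSystem.transfer_comp sys S famA φ
  rw [h1, h2]
  refine IsCosetSystem.transfer_eq_of_le_of_card famB famA ?_ ?_ φ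
  · rw [Fintype.card_prod, Fintype.card_prod, mul_comm]
  · rintro ⟨_, y⟩
    obtain ⟨u, y', hu⟩ := H1 y
    refine ⟨(y', ()), u, ?_⟩
    have : d * ρ y = (d * ρ y * d⁻¹) * d := by rw [inv_mul_cancel_right]
    rw [this, hu, mul_assoc]

/-- **Transfer.**  The operator of `ρ` commutes with the transfer along `f`. -/
theorem transfer_transferAlong (hι : Function.Injective ι) (sys : IsCosetSystem ι ι ρ)
    (sys' : IsCosetSystem ι' ι' ρ) (f : Γ' →* Γ) (hf : Function.Injective f)
    [f.range.FiniteIndex] (d : 𝒢)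
    (hd : ∀ g : Γ', d * ι' g = (ι.comp f) g * d)
    (H1 : ∀ y : I, ∃ (u : Γ) (y' : I), d * ρ y * d⁻¹ = ι u * ρ y')
    (H2 : ∀ (y y' : I) (m : Γ) (g : Γ') (Q : 𝒢),
      d * Q = ι m * d → ρ y * Q = ι' g * ρ y' → m ∈ f.range)
    (ψ : Additive Γ' →+ A) :
    sys.transfer (transferAlong f ψ) = transferAlong f (sys'.transfer ψ) := by
  classical
  let _ : Fintype (Γ ⧸ f.range) := f.range.fintypeQuotientOfFiniteIndex
  have sysT' := sys'.conj d hd hd
  have sysTr := IsCosetSystem.ofTransfer f hf ι hι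
  -- family A
  have famA := sysTr.prod sys (by
    intro x x' y y' g e
    have e2 : ρ y = ι (x.out * f g * (x'.out)⁻¹) * ρ y' := by
      have h1 : ρ y = ι x.out * (ι (x.out)⁻¹ * ρ y) := by
        rw [map_inv, mul_inv_cancel_left]
      rw [h1, e]
      simp only [MonoidHom.comp_apply, map_mul, mul_assoc]
    have hy := sys.eq_of_mul _ _ _ e2
    subst hy
    have e3 : ι (x.out * f g * (x'.out)⁻¹) = 1 := by
      have h2 : ι (x.out * f g * (x'.out)⁻¹) * ρ y = 1 * ρ y := by
        rw [one_mul]; exact e2.symm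
      exact mul_right_cancel h2
    have e4 : x.out * f g * (x'.out)⁻¹ = 1 := hι (e3.trans (map_one _).symm)
    have e5 : f g = (x.out)⁻¹ * x'.out := by
      have := congrArg (fun t => (x.out)⁻¹ * t * x'.out) e4
      simpa [mul_assoc] using this
    have hmem : (x.out)⁻¹ * x'.out ∈ f.range := ⟨g, e5⟩
    have h3 := QuotientGroup.eq.mpr hmem
    rw [QuotientGroup.out_eq', QuotientGroup.out_eq'] at h3
    exact ⟨h3, rfl⟩)
  -- family B
  have famB := sysT'.prod sysTr (by
    intro y y' x x' g e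
    have hfg : (ι.comp f) g = d * ι' g * d⁻¹ := by
      rw [hd g, mul_inv_cancel_right]
    have hQ : ρ y * (d⁻¹ * ι ((x.out)⁻¹ * x'.out) * d) = ι' g * ρ y' := by
      have e' := congrArg (fun t => d⁻¹ * t * (ι (x'.out)⁻¹)⁻¹ * d) e
      simp only [hfg, mul_assoc, inv_mul_cancel_left, inv_mul_cancel, mul_one, map_inv,
        inv_inv] at e'
      simp only [map_mul, map_inv, mul_assoc]
      exact e'
    have hmem := H2 y y' ((x.out)⁻¹ * x'.out) g (d⁻¹ * ι ((x.out)⁻¹ * x'.out) * d)
      (by simp only [mul_assoc, mul_inv_cancel_left]) hQ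
    have hx : x = x' := by
      have h3 := QuotientGroup.eq.mpr hmem
      rwa [QuotientGroup.out_eq', QuotientGroup.out_eq'] at h3
    subst hx
    refine ⟨?_, rfl⟩
    have e2 := mul_right_cancel (e.trans (mul_assoc _ _ _).symm)
    exact sysT'.eq_of_mul _ _ _ e2)
  rw [transferAlong_eq f hf ι hι, transferAlong_eq f hf ι hι,
    ← IsCosetSystem.conj_transfer sys' d hd hd]
  rw [IsCosetSystem.transfer_comp sysTr sys famA, IsCosetSystem.transfer_comp sysT' sysTr famB]
  symm
  refine IsCosetSystem.transfer_eq_of_le_of_card famB famA ?_ ?_ ψ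
  · rw [Fintype.card_prod, Fintype.card_prod, mul_comm]
  · rintro ⟨y, x⟩
    obtain ⟨u, y₁, hu⟩ := H1 y
    set w : Γ := u * sys.coc y₁ (x.out)⁻¹ with hw
    have hmem : (w⁻¹)⁻¹ * ((w⁻¹ : Γ) : Γ ⧸ f.range).out ∈ f.range :=
      QuotientGroup.eq.mp (QuotientGroup.out_eq' _).symm
    obtain ⟨g, hg⟩ := hmem
    rw [inv_inv] at hg
    refine ⟨(((w⁻¹ : Γ) : Γ ⧸ f.range), sys.act y₁ (x.out)⁻¹), g, ?_⟩
    rw [hu, mul_assoc, sys.spec y₁ (x.out)⁻¹, MonoidHom.comp_apply, hg]
    simp only [map_mul, map_inv, mul_assoc, hw]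
    rw [mul_inv_cancel_left]

end Fermat.Agent.S59.TW.H653.Cross
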