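import Mathlib
import Fermat.Agent.S41.H761.HT
import Fermat.Agent.S59.TW.H653.Comm.Main
import Fermat.Agent.S59.TW.H653.Cross.General

/-!
# S59 / TW-HECKE (helper653), block CROSS: change of level for the representatives

* `repsT_system_of_dvd`, `TK_eq_of_dvd` : for `N ∣ N'`, `ℓ ∤ N'`, the representatives
  `repsT N' ℓ` of level `N'` are a coset system for every `K` of level `N`, with operator `T_ℓ`;
* `mem_of_normRep` : `X = g * Y` with `X`, `Y` normalised modulo `N` implies `g ∈ K`;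
* `isNormRep_conjDiag` : `δ X δ⁻¹` is normalised modulo `N` if `X` is normalised modulo `N q`
  (`δ = diag(q, 1)`);
* `conjDiag_repsT`, `conjDiag_repsU` : `δ ρ_y δ⁻¹ = u ρ_y'` with `u ∈ K`;
* the arithmetic of the separation properties: `lower_dvd_of_rel`, `upper_dvd_of_rel`,
  `upper_dvd_of_rel'`.
-/

set_option autoImplicit false

namespace Fermat.Agent.S59.TW.H653.Cross

open CongruenceSubgroup Matrix.SpecialLinearGroup ModularCurve.Period ModularForm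
open Fermat.Agent.S29.H642 Fermat.Agent.S41.Spec Fermat.Agent.S41.H761
open Fermat.Agent.S59.TW.H653
open P2MW.S_ModularForm_heckeT_slash_eq_self_of_mem_Gamma0.ModularForm.HeckeSlashInvariance
open scoped MatrixGroups

variable {N N' : ℕ} {K : Subgroup SL(2, ℤ)} {A : Type*} [AddCommGroup A]

/-! ## Change of level -/

theorem gamma0_le_of_dvd (h : N ∣ N') : Gamma0 N' ≤ Gamma0 N := by
  intro g hg
  exact mem_Gamma0_of_dvd (dvd_trans (Int.natCast_dvd_natCast.mpr h) (dvd_of_mem_Gamma0 hg))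

/-- The inclusion `Γ₀(N') → Γ₀(N)`, `N ∣ N'`. -/
def inclG (h : N ∣ N') : Gamma0 N' →* Gamma0 N := Subgroup.inclusion (gamma0_le_of_dvd h)

theorem ιN_inclG (h : N ∣ N') (g : Gamma0 N') : ιN N (inclG h g) = ιN N' g := rfl

theorem isNormRep_of_dvd (h : N ∣ N') {X : GL (Fin 2) ℝ} (hX : IsNormRep N' X) :
    IsNormRep N X := by
  obtain ⟨a, b, c, d, hc, ha, hXe⟩ := hX
  have hd : (N : ℤ) ∣ (N' : ℤ) := Int.natCast_dvd_natCast.mpr h
  exact ⟨a, b, c, d, dvd_trans hd hc, dvd_trans hd ha, hXe⟩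

theorem isIntRep_of_dvd (h : N ∣ N') {n : ℤ} {X : GL (Fin 2) ℝ} (hX : IsIntRep N' n X) :
    IsIntRep N n X := by
  obtain ⟨m, h1, h2, h3, h4⟩ := hX
  have hd : (N : ℤ) ∣ (N' : ℤ) := Int.natCast_dvd_natCast.mpr h
  exact ⟨m, dvd_trans hd h1, dvd_trans hd h2, h3, h4⟩

/-- If `X = g * Y` with `X`, `Y` normalised modulo `N`, then `g ∈ K`. -/
theorem mem_of_normRep (hK : IsMid N K) {X Y : GL (Fin 2) ℝ} (hX : IsNormRep N X)
    (hY : IsNormRep N Y) {g : SL(2, ℤ)} (e : X = mapGL ℝ g * Y) : g ∈ K := by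
  have e' : X * ιN N 1 = mapGL ℝ g * Y := by rw [map_one, mul_one]; exact e
  obtain ⟨hg', hd⟩ := normRep_coc hX hY e'
  have h1 : dUnit N ⟨g, hg'⟩ = 1 := by rw [hd, map_one]
  exact hK.mem_of_dUnit_eq_one h1

variable {ℓ : ℕ} [Fact ℓ.Prime]

/-- The representatives of `T_ℓ` of level `N'` form a coset system for `Γ₀(N)`, `N ∣ N'`. -/
theorem repsT_system0_of_dvd (h : N ∣ N') (hℓ : ¬ ℓ ∣ N) :
    IsCosetSystem (ιN N) (ιN N) (repsT N' ℓ) := by
  have e : repsT N' ℓ = fun x => ιN N (inclG h (tauT N' ℓ x)) * heckeRep ℓ x :=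
    repsT_eq_twist N' ℓ
  rw [e]
  exact twist (heckeSystem hℓ) _

/-- The representatives of `T_ℓ` of level `N'` form a coset system for `K` of level `N ∣ N'`. -/
theorem repsT_system_of_dvd (hK : IsMid N K) (h : N ∣ N') (hℓ' : ¬ ℓ ∣ N') :
    IsCosetSystem (ιK K) (ιK K) (repsT N' ℓ) :=
  system_of_gamma0 hK (repsT_system0_of_dvd h (fun h' => hℓ' (dvd_trans h' h)))
    (fun x => isNormRep_of_dvd h (isNormRep_repsT hℓ' x))

/-- **Change of level.**  `T_ℓ` on `Hom(K, A)` is the operator of the representatives of any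
level `N'`, `N ∣ N'`, `ℓ ∤ N'`. -/
theorem TK_eq_of_dvd (hK : IsMid N K) (h : N ∣ N') (hℓ' : ¬ ℓ ∣ N') (φ : Additive K →+ A) :
    TK N K ℓ φ = (repsT_system_of_dvd hK h hℓ').transfer φ := by
  have hℓ : ¬ ℓ ∣ N := fun h' => hℓ' (dvd_trans h' h)
  rw [TK_eq hK hℓ]
  refine IsCosetSystem.transfer_eq_of_le_of_card _ _ rfl ?_ φ
  intro x
  have e1 : repsT N ℓ x = ιN N (tauT N ℓ x) * heckeRep ℓ x := congrFun (repsT_eq_twist N ℓ) x
  have e2 : repsT N' ℓ x = ιN N (inclG h (tauT N' ℓ x)) * heckeRep ℓ x :=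
    congrFun (repsT_eq_twist N' ℓ) x
  have e3 : repsT N ℓ x =
      mapGL ℝ ((tauT N ℓ x * (inclG h (tauT N' ℓ x))⁻¹ : Gamma0 N) : SL(2, ℤ)) *
        repsT N' ℓ x := by
    have : mapGL ℝ ((tauT N ℓ x * (inclG h (tauT N' ℓ x))⁻¹ : Gamma0 N) : SL(2, ℤ)) =
        ιN N (tauT N ℓ x) * (ιN N (inclG h (tauT N' ℓ x)))⁻¹ := by
      rw [← ιN_apply, map_mul, map_inv]
    rw [this, e1, e2]
    simp only [mul_assoc, inv_mul_cancel_left]
  have hmem := mem_of_normRep hK (isNormRep_repsT hℓ x)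
    (isNormRep_of_dvd h (isNormRep_repsT hℓ' x)) e3
  exact ⟨x, ⟨_, hmem⟩, e3⟩

omit [Fact ℓ.Prime]

/-! ## Conjugation by `δ = diag(q, 1)` -/

variable {q : ℕ}

/-- `δ X δ⁻¹` is normalised modulo `N` if `X` is normalised modulo `N q`. -/
theorem isNormRep_conjDiag (hq : q ≠ 0) {X : GL (Fin 2) ℝ} (hX : IsNormRep (N * q) X) :
    IsNormRep N (heckeDiagMatrix q * X * (heckeDiagMatrix q)⁻¹) := by
  obtain ⟨a, b, c, d, ⟨k, hk⟩, ⟨k', hk'⟩, hXe⟩ := hX
  have hq' : (q : ℝ) ≠ 0 := Nat.cast_ne_zero.mpr hq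
  refine ⟨a, q * b, N * k, d, Dvd.intro _ rfl, ⟨q * k', ?_⟩, ?_⟩
  · rw [hk']
    push_cast
    ring
  · set W := heckeDiagMatrix q * X * (heckeDiagMatrix q)⁻¹ with hW
    have hWd : W * heckeDiagMatrix q = heckeDiagMatrix q * X := by
      rw [hW, inv_mul_cancel_right]
    have key : ∀ i j, ((W * heckeDiagMatrix q : GL (Fin 2) ℝ) :
        Matrix (Fin 2) (Fin 2) ℝ) i j =
        ((heckeDiagMatrix q * X : GL (Fin 2) ℝ) : Matrix (Fin 2) (Fin 2) ℝ) i j := by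
      intro i j
      rw [hWd]
    have k00 := key 0 0
    have k01 := key 0 1
    have k10 := key 1 0
    have k11 := key 1 1
    simp only [coe_mul_apply, val_heckeDiagMatrix hq, hXe, Matrix.of_apply, Matrix.cons_val',
      Matrix.cons_val_zero, Matrix.cons_val_one, Matrix.cons_val_fin_one, mul_zero, add_zero,
      zero_mul, zero_add, mul_one, one_mul] at k00 k01 k10 k11
    have hc : (c : ℝ) = (N : ℝ) * (q : ℝ) * (k : ℝ) := by
      rw [hk]
      push_cast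
      ring
    ext i j
    fin_cases i <;> fin_cases j <;>
      simp only [Matrix.of_apply, Matrix.cons_val', Matrix.cons_val_zero, Matrix.cons_val_one,
        Matrix.cons_val_fin_one, Fin.zero_eta, Fin.mk_one, Fin.isValue]
    · exact mul_right_cancel₀ hq' (by rw [k00]; ring)
    · rw [k01]
      push_cast
      ring
    · apply mul_right_cancel₀ hq'
      rw [k10, hc]
      push_cast
      ring
    · exact k11

/-- `δ ρ_y δ⁻¹ = u ρ_y'`, `u ∈ K`, for the representatives of `T_ℓ` of level `N q`. -/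
theorem conjDiag_repsT [Fact ℓ.Prime] (hK : IsMid N K) (hq : q ≠ 0) (hℓ' : ¬ ℓ ∣ N * q)
    (y : OnePoint (ZMod ℓ)) :
    ∃ (u : K) (y' : OnePoint (ZMod ℓ)),
      heckeDiagMatrix q * repsT (N * q) ℓ y * (heckeDiagMatrix q)⁻¹ =
        ιK K u * repsT (N * q) ℓ y' := by
  obtain ⟨u₀, y', hu₀⟩ := diag_conj_heckeRep (N := N) (l := ℓ) hq y
  have e1 : repsT (N * q) ℓ y = ιN (N * q) (tauT (N * q) ℓ y) * heckeRep ℓ y :=
    congrFun (repsT_eq_twist (N * q) ℓ) y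
  have e2 : repsT (N * q) ℓ y' = ιN N (incl N q (tauT (N * q) ℓ y')) * heckeRep ℓ y' :=
    congrFun (repsT_eq_twist (N * q) ℓ) y'
  set g : Gamma0 N := conjDelta N q (tauT (N * q) ℓ y) * u₀ *
    (incl N q (tauT (N * q) ℓ y'))⁻¹ with hg
  have e3 : heckeDiagMatrix q * repsT (N * q) ℓ y * (heckeDiagMatrix q)⁻¹ =
      mapGL ℝ (g : SL(2, ℤ)) * repsT (N * q) ℓ y' := by
    have hgι : mapGL ℝ (g : SL(2, ℤ)) = ιN N (conjDelta N q (tauT (N * q) ℓ y)) * ιN N u₀ *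
        (ιN N (incl N q (tauT (N * q) ℓ y')))⁻¹ := by
      rw [← ιN_apply, hg, map_mul, map_mul, map_inv]
    have hrel := diag_rel (N := N) hq (tauT (N * q) ℓ y)
    rw [MonoidHom.comp_apply] at hrel
    rw [hgι, e1, e2, ← mul_assoc (heckeDiagMatrix q), hrel]
    simp only [mul_assoc, inv_mul_cancel_left]
    rw [← mul_assoc (heckeDiagMatrix q) (heckeRep ℓ y), hu₀]
  have hdvd : N ∣ N * q := Dvd.intro _ rfl
  have hmem := mem_of_normRep hK (isNormRep_conjDiag hq (isNormRep_repsT hℓ' y))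
    (isNormRep_of_dvd hdvd (isNormRep_repsT hℓ' y')) e3
  exact ⟨⟨_, hmem⟩, y', e3⟩

/-- `δ ρ_j δ⁻¹ = u ρ_j'`, `u ∈ K`, for the representatives of `U_q'`. -/
theorem conjDiag_repsU (hK : IsMid N K) (hq : q ≠ 0) {q' : ℕ} [Fact q'.Prime] (j : ZMod q') :
    ∃ (u : K) (j' : ZMod q'),
      heckeDiagMatrix q * repsU q' j * (heckeDiagMatrix q)⁻¹ = ιK K u * repsU q' j' := by
  have hq'0 : q' ≠ 0 := (Fact.out : q'.Prime).ne_zero
  obtain ⟨T, Y, hmod⟩ : ∃ (T : ℕ) (Y : ZMod q'),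
      ((Y.val : ℕ) : ℝ) + (T : ℝ) * q' = (q : ℝ) * j.val := by
    refine ⟨q * j.val / q', ((q * j.val : ℕ) : ZMod q'), ?_⟩
    rw [ZMod.val_natCast]
    have := Nat.mod_add_div (q * j.val) q'
    have h2 : (((q * j.val) % q' + q' * (q * j.val / q') : ℕ) : ℝ) = ((q * j.val : ℕ) : ℝ) := by
      rw [this]
    push_cast at h2
    linarith
  obtain ⟨u00, u01, u10, u11⟩ := mkGamma0_apply N 1 (T : ℤ) 0 1 (by ring) (dvd_zero _)
  have e3 : heckeDiagMatrix q * repsU q' j * (heckeDiagMatrix q)⁻¹ =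
      mapGL ℝ ((mkGamma0 N 1 (T : ℤ) 0 1 (by ring) (dvd_zero _) : Gamma0 N) : SL(2, ℤ)) *
        repsU q' Y := by
    rw [mul_inv_eq_iff_eq_mul]
    apply gl_ext <;>
      simp only [repsU, coe_mul_apply, coe_mapGL_apply, val_heckeMatrix hq'0,
        val_heckeDiagMatrix hq, Matrix.of_apply, Matrix.cons_val', Matrix.cons_val_zero,
        Matrix.cons_val_one, Matrix.cons_val_fin_one, u00, u01, u10, u11] <;>
      push_cast
    · ring
    · linear_combination (-1 : ℝ) * hmod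
    · ring
    · ring
  have hmem := mem_of_normRep hK
    (isNormRep_conjDiag hq (isNormRep_repsU (M := N * q) q' j)) (isNormRep_repsU q' Y) e3
  exact ⟨⟨_, hmem⟩, Y, e3⟩

/-! ## The arithmetic of the separation properties -/

theorem isCoprime_of_det {x : Matrix (Fin 2) (Fin 2) ℤ} {n D : ℤ} (hdet : x.det = n)
    (hn : IsCoprime n D) (hx : D ∣ x 1 0) : IsCoprime (x 1 1) D := by
  obtain ⟨a, b, hab⟩ := hn
  obtain ⟨k, hk⟩ := hx
  rw [Matrix.det_fin_two] at hdet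
  refine ⟨a * x 0 0, b - a * x 0 1 * k, ?_⟩
  rw [← hdet, hk] at hab
  linear_combination hab

/-- If `X * m = g * Y` with integral `X`, `Y`, `D ∣ X₁₀, Y₁₀, g₁₀` and `det X` prime to `D`, then
`D ∣ m₁₀`. -/
theorem lower_dvd_of_rel {D : ℕ} {n n' : ℤ} {D' : ℤ} {X Y : GL (Fin 2) ℝ}
    (hX : IsIntRep D n X) (hY : IsIntRep D n' Y) (hD : D' ∣ (D : ℤ)) (hn : IsCoprime n D')
    {m g : SL(2, ℤ)} (hg : D' ∣ g 1 0) (e : X * mapGL ℝ m = mapGL ℝ g * Y) : D' ∣ m 1 0 := by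
  obtain ⟨x, hx1, -, hxdet, hXe⟩ := hX
  obtain ⟨y, hy1, -, -, hYe⟩ := hY
  have e1 : x * (m : Matrix (Fin 2) (Fin 2) ℤ) = (g : Matrix (Fin 2) (Fin 2) ℤ) * y :=
    int_eq_mul_of_gl hXe (fun i j => coe_mapGL_apply m i j) (fun i j => coe_mapGL_apply g i j)
      hYe e
  have e10 := congrFun (congrFun e1 1) 0
  simp only [Matrix.mul_apply, Fin.sum_univ_two] at e10
  have hcop := isCoprime_of_det hxdet hn (dvd_trans hD hx1)
  have h1 : D' ∣ x 1 1 * m 1 0 := by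
    have h2 : x 1 1 * m 1 0 = g 1 0 * y 0 0 + g 1 1 * y 1 0 - x 1 0 * m 0 0 := by
      linear_combination e10
    rw [h2]
    exact dvd_sub (dvd_add (dvd_mul_of_dvd_left hg _) (dvd_mul_of_dvd_right (dvd_trans hD hy1) _))
      (dvd_mul_of_dvd_left (dvd_trans hD hx1) _)
  exact hcop.symm.dvd_of_dvd_mul_left h1

/-- If `δ Q = m δ` and `X Q = g Y` with integral `X`, `Y`, `X₀₀ ≡ 1 mod q`, then `q ∣ m₀₁`. -/
theorem upper_dvd_of_rel {D : ℕ} {n n' : ℤ} (hq : q ≠ 0) (hD : (q : ℤ) ∣ (D : ℤ))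
    {X Y Q : GL (Fin 2) ℝ} (hX : IsIntRep D n X) (hY : IsIntRep D n' Y) {m g : SL(2, ℤ)}
    (hQ : heckeDiagMatrix q * Q = mapGL ℝ m * heckeDiagMatrix q)
    (e : X * Q = mapGL ℝ g * Y) : (q : ℤ) ∣ m 0 1 := by
  obtain ⟨x, -, hx0, -, hXe⟩ := hX
  obtain ⟨y, -, -, -, hYe⟩ := hY
  have q01 := congrArg (fun M : GL (Fin 2) ℝ => (M : Matrix (Fin 2) (Fin 2) ℝ) 0 1) hQ
  have q11 := congrArg (fun M : GL (Fin 2) ℝ => (M : Matrix (Fin 2) (Fin 2) ℝ) 1 1) hQ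
  have e01 := congrArg (fun M : GL (Fin 2) ℝ => (M : Matrix (Fin 2) (Fin 2) ℝ) 0 1) e
  simp only [coe_mul_apply, coe_mapGL_apply, val_heckeDiagMatrix hq, Matrix.of_apply,
    Matrix.cons_val', Matrix.cons_val_zero, Matrix.cons_val_one, Matrix.cons_val_fin_one,
    zero_mul, zero_add, mul_zero, add_zero, one_mul, mul_one] at q01 q11
  simp only [coe_mul_apply, coe_mapGL_apply, hXe, hYe] at e01
  rw [q11] at e01
  have key : ((x 0 0 : ℤ) : ℝ) * ((m 0 1 : ℤ) : ℝ) =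
      (q : ℝ) * (((g 0 0 : ℤ) : ℝ) * ((y 0 1 : ℤ) : ℝ) + ((g 0 1 : ℤ) : ℝ) * ((y 1 1 : ℤ) : ℝ)
        - ((x 0 1 : ℤ) : ℝ) * ((m 1 1 : ℤ) : ℝ)) := by
    rw [← q01]
    linear_combination (q : ℝ) * e01
  have key' : x 0 0 * m 0 1 = q * (g 0 0 * y 0 1 + g 0 1 * y 1 1 - x 0 1 * m 1 1) := by
    exact_mod_cast key
  obtain ⟨k, hk⟩ := dvd_trans hD hx0
  refine ⟨g 0 0 * y 0 1 + g 0 1 * y 1 1 - x 0 1 * m 1 1 - k * m 0 1, ?_⟩
  have hx : x 0 0 = 1 + q * k := by linarith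
  rw [hx] at key'
  linear_combination key'

/-- If `δ X = m δ Y` with integral `X`, `Y`, `q ∣ Y₁₀` and `det Y` prime to `q`, then
`q ∣ m₀₁`. -/
theorem upper_dvd_of_rel' {D : ℕ} {n n' : ℤ} (hq : q ≠ 0) (hD : (q : ℤ) ∣ (D : ℤ))
    {X Y : GL (Fin 2) ℝ} (hX : IsIntRep D n X) (hY : IsIntRep D n' Y)
    (hn' : IsCoprime n' (q : ℤ)) {m : SL(2, ℤ)}
    (e : heckeDiagMatrix q * X = mapGL ℝ m * (heckeDiagMatrix q * Y)) : (q : ℤ) ∣ m 0 1 := by
  obtain ⟨x, -, -, -, hXe⟩ := hX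
  obtain ⟨y, hy1, -, hydet, hYe⟩ := hY
  have e01 := congrArg (fun M : GL (Fin 2) ℝ => (M : Matrix (Fin 2) (Fin 2) ℝ) 0 1) e
  simp only [coe_mul_apply, coe_mapGL_apply, val_heckeDiagMatrix hq, hXe, hYe, Matrix.of_apply,
    Matrix.cons_val', Matrix.cons_val_zero, Matrix.cons_val_one, Matrix.cons_val_fin_one,
    zero_mul, zero_add, add_zero, one_mul] at e01
  have key : (q : ℤ) * x 0 1 = m 0 0 * (q * y 0 1) + m 0 1 * y 1 1 := by
    exact_mod_cast e01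
  have hcop := isCoprime_of_det hydet hn' (dvd_trans hD hy1)
  have h1 : (q : ℤ) ∣ y 1 1 * m 0 1 := ⟨x 0 1 - m 0 0 * y 0 1, by linear_combination -key⟩
  exact hcop.symm.dvd_of_dvd_mul_left h1

end Fermat.Agent.S59.TW.H653.Cross
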