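import Mathlib
import Fermat.Agent.S59.TW.H653.Cross.Level

/-!
# S59 / TW-HECKE (helper653), block CROSS: `T_ℓ` and `U_q'` commute with the degeneracy maps at
`Γ_H`-levels

Levels: `K` with `Γ₁(N) ≤ K ≤ Γ₀(N)` and `K' ≤ K` with `Γ₁(N q) ≤ K' ≤ Γ₀(N q)`
(for `t₁`, `t₂`: `K' = K ⊓ Γ₀(N q)`, given as the hypothesis `hmem`), any coefficient group `A`.
Degeneracy maps:

* `r₁ = resK h`, `t₁ = coresK h` (restriction and transfer along `K' ≤ K`);
* `r₂ φ = φ ∘ c`, `t₂ = transferAlong c` for ANY homomorphism `c : K' →* K` which is the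
  conjugation by `δ = diag(q, 1)` (`hc : δ * ιK K' k = ιK K (c k) * δ`) and whose range contains
  every `m ∈ K` with `q ∣ m₀₁` (`hrange`), e.g. the restriction of `S41.Spec.conjDelta`.

Operators: `T_ℓ` (`ℓ ∤ N q` prime) and `U_q'` (`q' ∣ N` prime, prime to `q`), at both levels:

| | `T_ℓ` | `U_q'` |
|---|---|---|
| `r₁` | `TK_resK` | `UK_resK` |
| `r₂` | `TK_comp_conj` | `UK_comp_conj` |
| `t₁` | `TK_coresK` | `UK_coresK` |
| `t₂` | `TK_transferAlong_conj` | `UK_transferAlong_conj` |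

These are the hypotheses `hf` of the naturality of the localised parts (`H105.nat_of_isLocPart`)
for the four degeneracy maps.
-/

set_option autoImplicit false

namespace Fermat.Agent.S59.TW.H653.Cross

open CongruenceSubgroup Matrix.SpecialLinearGroup ModularCurve.Period ModularForm
open Fermat.Agent.S29.H642 Fermat.Agent.S41.Spec Fermat.Agent.S41.H761
open Fermat.Agent.S59.TW.H653
open P2MW.S_ModularForm_heckeT_slash_eq_self_of_mem_Gamma0.ModularForm.HeckeSlashInvariance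
open scoped MatrixGroups

variable {N q : ℕ} {K K' : Subgroup SL(2, ℤ)} {A : Type*} [AddCommGroup A]

theorem TK_zero (hK : IsMid N K) {ℓ : ℕ} [Fact ℓ.Prime] (hℓ : ¬ ℓ ∣ N) :
    TK N K ℓ (0 : Additive K →+ A) = 0 := by
  have h := TK_add hK hℓ (0 : Additive K →+ A) 0
  rw [add_zero] at h
  exact left_eq_add.mp h

theorem UK_zero (hK : IsMid N K) {q' : ℕ} [Fact q'.Prime] (hq' : q' ∣ N) :
    UK K q' (0 : Additive K →+ A) = 0 := by
  have h := UK_add hK hq' (0 : Additive K →+ A) 0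
  rw [add_zero] at h
  exact left_eq_add.mp h

theorem dvd_mul_self_right (N q : ℕ) : N ∣ N * q := Dvd.intro _ rfl

theorem isCoprime_natCast {a b : ℕ} (h : Nat.Coprime a b) : IsCoprime (a : ℤ) (b : ℤ) := by
  rw [Int.isCoprime_iff_gcd_eq_one, Int.gcd_natCast_natCast]
  exact h

theorem isCoprime_of_prime_not_dvd {ℓ M : ℕ} [Fact ℓ.Prime] (hℓ : ¬ ℓ ∣ M) :
    IsCoprime (ℓ : ℤ) (M : ℤ) :=
  isCoprime_natCast ((Fact.out : ℓ.Prime).coprime_iff_not_dvd.mpr hℓ)

/-- Injectivity of a homomorphism realised by a conjugation. -/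
theorem injective_of_conj (c : K' →* K) (d : GL (Fin 2) ℝ)
    (hc : ∀ k : K', d * ιK K' k = ιK K (c k) * d) : Function.Injective c := by
  intro k k' e
  apply ιK_injective K'
  have h1 := hc k
  rw [e, ← hc k'] at h1
  exact mul_left_cancel h1

/-! ## Restriction `r₁` -/

section Res

variable (hK : IsMid N K) (hK' : IsMid (N * q) K') (h : K' ≤ K)
include hK hK'

/-- `T_ℓ r₁ = r₁ T_ℓ`. -/
theorem TK_resK {ℓ : ℕ} [Fact ℓ.Prime] (hℓ : ¬ ℓ ∣ N * q) (φ : Additive K →+ A) :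
    TK (N * q) K' ℓ (resK h φ) = resK h (TK N K ℓ φ) := by
  rw [TK_eq hK' hℓ, TK_eq_of_dvd hK (dvd_mul_self_right N q) hℓ]
  exact transfer_comp_hom (ιK_injective K)
    (repsT_system_of_dvd hK (dvd_mul_self_right N q) hℓ) (repsT_system hK' hℓ)
    (Subgroup.inclusion h) 1 (fun g => by rw [one_mul, mul_one]; rfl)
    (fun y => ⟨1, y, by simp⟩)
    (fun y y' m e => (repsT_system_of_dvd hK (dvd_mul_self_right N q) hℓ).eq_of_mul y y' m
      (by simpa using e)) φ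

/-- `U_q' r₁ = r₁ U_q'`. -/
theorem UK_resK {q' : ℕ} [Fact q'.Prime] (hq' : q' ∣ N) (φ : Additive K →+ A) :
    UK K' q' (resK h φ) = resK h (UK K q' φ) := by
  have hq'' : q' ∣ N * q := dvd_mul_of_dvd_left hq' q
  rw [UK_eq hK' hq'', UK_eq hK hq']
  exact transfer_comp_hom (ιK_injective K) (repsU_system hK hq') (repsU_system hK' hq'')
    (Subgroup.inclusion h) 1 (fun g => by rw [one_mul, mul_one]; rfl)
    (fun y => ⟨1, y, by simp⟩)
    (fun y y' m e => (repsU_system hK hq').eq_of_mul y y' m (by simpa using e)) φ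

end Res

/-! ## Transfer `t₁` -/

section Cores

variable (hK : IsMid N K) (hK' : IsMid (N * q) K') (h : K' ≤ K)
  (hmem : ∀ k : SL(2, ℤ), k ∈ K → k ∈ Gamma0 (N * q) → k ∈ K')
include hK hK' hmem

omit hK hK' hmem in
theorem coresK_eq_zero (hfin : ¬ (Subgroup.inclusion h).range.FiniteIndex)
    (χ : Additive K' →+ A) : coresK h χ = 0 := by
  unfold coresK transferAlong
  rw [dif_neg (fun h' => hfin h'.2)]

omit hK hK' hmem in
theorem mem_range_inclusion (m : K) (hm : (m : SL(2, ℤ)) ∈ K') :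
    m ∈ (Subgroup.inclusion h).range :=
  ⟨⟨m, hm⟩, Subtype.ext rfl⟩

/-- `T_ℓ t₁ = t₁ T_ℓ`. -/
theorem TK_coresK {ℓ : ℕ} [Fact ℓ.Prime] (hℓ : ¬ ℓ ∣ N * q) (ψ : Additive K' →+ A) :
    TK N K ℓ (coresK h ψ) = coresK h (TK (N * q) K' ℓ ψ) := by
  have hℓN : ¬ ℓ ∣ N := fun h' => hℓ (dvd_mul_of_dvd_left h' q)
  by_cases hfin : (Subgroup.inclusion h).range.FiniteIndex
  · rw [TK_eq hK' hℓ, TK_eq_of_dvd hK (dvd_mul_self_right N q) hℓ]
    refine transfer_transferAlong (ιK_injective K)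
      (repsT_system_of_dvd hK (dvd_mul_self_right N q) hℓ) (repsT_system hK' hℓ)
      (Subgroup.inclusion h) (Subgroup.inclusion_injective h) 1
      (fun g => by rw [one_mul, mul_one]; rfl) (fun y => ⟨1, y, by simp⟩) ?_ ψ
    intro y y' m g Q hQ e
    rw [one_mul, mul_one] at hQ
    subst hQ
    have hdvd : ((N * q : ℕ) : ℤ) ∣ (m : SL(2, ℤ)) 1 0 :=
      lower_dvd_of_rel (isIntRep_repsT hℓ y) (isIntRep_repsT hℓ y') (dvd_refl _)
        (isCoprime_of_prime_not_dvd hℓ) (dvd_of_mem_Gamma0 (hK'.le g.2)) e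
    exact mem_range_inclusion h m (hmem _ m.2 (mem_Gamma0_of_dvd hdvd))
  · rw [coresK_eq_zero h hfin, coresK_eq_zero h hfin, TK_zero hK hℓN]

/-- `U_q' t₁ = t₁ U_q'`. -/
theorem UK_coresK (hNq : Nat.Coprime N q) {q' : ℕ} [Fact q'.Prime] (hq' : q' ∣ N)
    (ψ : Additive K' →+ A) :
    UK K q' (coresK h ψ) = coresK h (UK K' q' ψ) := by
  have hq'' : q' ∣ N * q := dvd_mul_of_dvd_left hq' q
  have hcop : Nat.Coprime q' q := Nat.Coprime.coprime_dvd_left hq' hNq
  by_cases hfin : (Subgroup.inclusion h).range.FiniteIndex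
  · rw [UK_eq hK' hq'', UK_eq hK hq']
    refine transfer_transferAlong (ιK_injective K) (repsU_system hK hq')
      (repsU_system hK' hq'') (Subgroup.inclusion h) (Subgroup.inclusion_injective h) 1
      (fun g => by rw [one_mul, mul_one]; rfl) (fun y => ⟨1, y, by simp⟩) ?_ ψ
    intro y y' m g Q hQ e
    rw [one_mul, mul_one] at hQ
    subst hQ
    have hg : ((N * q : ℕ) : ℤ) ∣ (g : SL(2, ℤ)) 1 0 := dvd_of_mem_Gamma0 (hK'.le g.2)
    have hqg : (q : ℤ) ∣ (g : SL(2, ℤ)) 1 0 :=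
      dvd_trans (Int.natCast_dvd_natCast.mpr (Dvd.intro_left N rfl)) hg
    have hdq : (q : ℤ) ∣ (m : SL(2, ℤ)) 1 0 :=
      lower_dvd_of_rel (D := N * q) (isIntRep_repsU q' y) (isIntRep_repsU q' y')
        (Int.natCast_dvd_natCast.mpr (Dvd.intro_left N rfl)) (isCoprime_natCast hcop) hqg e
    have hdN : (N : ℤ) ∣ (m : SL(2, ℤ)) 1 0 := dvd_of_mem_Gamma0 (hK.le m.2)
    have hdvd : ((N * q : ℕ) : ℤ) ∣ (m : SL(2, ℤ)) 1 0 := by
      push_cast
      exact (isCoprime_natCast hNq).mul_dvd hdN hdq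
    exact mem_range_inclusion h m (hmem _ m.2 (mem_Gamma0_of_dvd hdvd))
  · rw [coresK_eq_zero h hfin, coresK_eq_zero h hfin, UK_zero hK hq']

end Cores

/-! ## The conjugation by `δ = diag(q, 1)`: `r₂` and `t₂` -/

section Conj

variable (hK : IsMid N K) (hK' : IsMid (N * q) K') (hq : q ≠ 0) (c : K' →* K)
  (hc : ∀ k : K', heckeDiagMatrix q * ιK K' k = ιK K (c k) * heckeDiagMatrix q)
  (hrange : ∀ m : K, (q : ℤ) ∣ (m : SL(2, ℤ)) 0 1 → m ∈ c.range)
include hK hK' hq hc hrange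

omit hK hK' in
/-- The separation property of the pull-back. -/
theorem sep_conj {I : Type*} {ρ : I → GL (Fin 2) ℝ} (sys' : IsCosetSystem (ιK K') (ιK K') ρ)
    {n : ℤ} (hρ : ∀ i, IsIntRep (N * q) n (ρ i)) (hn : IsCoprime n (q : ℤ)) (y y' : I) (m : K)
    (e : heckeDiagMatrix q * ρ y = ιK K m * (heckeDiagMatrix q * ρ y')) : y = y' := by
  have hdvd : (q : ℤ) ∣ (m : SL(2, ℤ)) 0 1 :=
    upper_dvd_of_rel' (D := N * q) hq (Int.natCast_dvd_natCast.mpr (Dvd.intro_left N rfl))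
      (hρ y) (hρ y') hn e
  obtain ⟨k, hk⟩ := hrange m hdvd
  apply sys'.eq_of_mul y y' k
  have h1 : heckeDiagMatrix q * ρ y = heckeDiagMatrix q * (ιK K' k * ρ y') := by
    rw [e, ← hk, ← mul_assoc, ← hc k, mul_assoc]
  exact mul_left_cancel h1

/-- `T_ℓ r₂ = r₂ T_ℓ`. -/
theorem TK_comp_conj {ℓ : ℕ} [Fact ℓ.Prime] (hℓ : ¬ ℓ ∣ N * q) (φ : Additive K →+ A) :
    TK (N * q) K' ℓ (φ.comp (MonoidHom.toAdditive c)) =
      (TK N K ℓ φ).comp (MonoidHom.toAdditive c) := by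
  have hℓq : ¬ ℓ ∣ q := fun h' => hℓ (dvd_mul_of_dvd_right h' N)
  rw [TK_eq hK' hℓ, TK_eq_of_dvd hK (dvd_mul_self_right N q) hℓ]
  exact transfer_comp_hom (ιK_injective K)
    (repsT_system_of_dvd hK (dvd_mul_self_right N q) hℓ) (repsT_system hK' hℓ)
    c (heckeDiagMatrix q) hc (conjDiag_repsT hK hq hℓ)
    (sep_conj hq c hc hrange (repsT_system hK' hℓ) (fun i => isIntRep_repsT hℓ i)
      (isCoprime_of_prime_not_dvd hℓq)) φ

/-- `U_q' r₂ = r₂ U_q'`. -/
theorem UK_comp_conj {q' : ℕ} [Fact q'.Prime] (hq' : q' ∣ N) (hcop : Nat.Coprime q' q)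
    (φ : Additive K →+ A) :
    UK K' q' (φ.comp (MonoidHom.toAdditive c)) =
      (UK K q' φ).comp (MonoidHom.toAdditive c) := by
  have hq'' : q' ∣ N * q := dvd_mul_of_dvd_left hq' q
  rw [UK_eq hK' hq'', UK_eq hK hq']
  exact transfer_comp_hom (ιK_injective K) (repsU_system hK hq') (repsU_system hK' hq'')
    c (heckeDiagMatrix q) hc (conjDiag_repsU hK hq)
    (sep_conj (N := N) hq c hc hrange (repsU_system hK' hq'') (fun i => isIntRep_repsU q' i)
      (isCoprime_natCast hcop)) φ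

omit hK hK' hq hc hrange in
theorem transferAlong_eq_zero (hfin : ¬ c.range.FiniteIndex) (χ : Additive K' →+ A) :
    transferAlong c χ = 0 := by
  unfold transferAlong
  rw [dif_neg (fun h' => hfin h'.2)]

/-- `T_ℓ t₂ = t₂ T_ℓ`. -/
theorem TK_transferAlong_conj {ℓ : ℕ} [Fact ℓ.Prime] (hℓ : ¬ ℓ ∣ N * q)
    (ψ : Additive K' →+ A) :
    TK N K ℓ (transferAlong c ψ) = transferAlong c (TK (N * q) K' ℓ ψ) := by
  have hℓN : ¬ ℓ ∣ N := fun h' => hℓ (dvd_mul_of_dvd_left h' q)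
  by_cases hfin : c.range.FiniteIndex
  · rw [TK_eq hK' hℓ, TK_eq_of_dvd hK (dvd_mul_self_right N q) hℓ]
    refine transfer_transferAlong (ιK_injective K)
      (repsT_system_of_dvd hK (dvd_mul_self_right N q) hℓ) (repsT_system hK' hℓ)
      c (injective_of_conj c _ hc) (heckeDiagMatrix q) hc (conjDiag_repsT hK hq hℓ) ?_ ψ
    intro y y' m g Q hQ e
    exact hrange m (upper_dvd_of_rel (D := N * q) hq
      (Int.natCast_dvd_natCast.mpr (Dvd.intro_left N rfl)) (isIntRep_repsT hℓ y)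
      (isIntRep_repsT hℓ y') hQ e)
  · rw [transferAlong_eq_zero c hfin, transferAlong_eq_zero c hfin, TK_zero hK hℓN]

/-- `U_q' t₂ = t₂ U_q'`. -/
theorem UK_transferAlong_conj {q' : ℕ} [Fact q'.Prime] (hq' : q' ∣ N) (ψ : Additive K' →+ A) :
    UK K q' (transferAlong c ψ) = transferAlong c (UK K' q' ψ) := by
  have hq'' : q' ∣ N * q := dvd_mul_of_dvd_left hq' q
  by_cases hfin : c.range.FiniteIndex
  · rw [UK_eq hK' hq'', UK_eq hK hq']
    refine transfer_transferAlong (ιK_injective K) (repsU_system hK hq')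
      (repsU_system hK' hq'') c (injective_of_conj c _ hc) (heckeDiagMatrix q) hc
      (conjDiag_repsU hK hq) ?_ ψ
    intro y y' m g Q hQ e
    exact hrange m (upper_dvd_of_rel (D := N * q) hq
      (Int.natCast_dvd_natCast.mpr (Dvd.intro_left N rfl)) (isIntRep_repsU q' y)
      (isIntRep_repsU q' y') hQ e)
  · rw [transferAlong_eq_zero c hfin, transferAlong_eq_zero c hfin, UK_zero hK hq']

end Conj

end Fermat.Agent.S59.TW.H653.Cross
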