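import Mathlib
import Fermat.Agent.S59.TW.H653.Cross.Main

/-!
# S59 / TW-HECKE (helper653), block CROSS: the hypotheses on `c` for the restriction of
`S41.Spec.conjDelta`

`K' = K ⊓ Γ₀(N q)` (hypotheses `hK' : IsMid (N q) K'`, `hmem`), `c : K' →* K` ANY homomorphism with

  `hcoe : ∀ k : K', (c k : SL(2, ℤ)) = (conjDelta N q ⟨k, _⟩ : SL(2, ℤ))`

(for the maps `conjDeltaK` of `TW/H62/KLevelSpec.lean` and `TW/H201/KDegDefs.lean` this is `rfl`).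
Then `c` satisfies the hypotheses `hc`, `hrange` of `Cross/Main.lean`, hence

* `TK_r₂`, `UK_r₂` : `T_ℓ`, `U_q'` commute with `r₂ φ = φ ∘ c`;
* `TK_t₂`, `UK_t₂` : `T_ℓ`, `U_q'` commute with `t₂ = transferAlong c`.
-/

set_option autoImplicit false

namespace Fermat.Agent.S59.TW.H653.Cross

open CongruenceSubgroup Matrix.SpecialLinearGroup ModularCurve.Period ModularForm
open Fermat.Agent.S29.H642 Fermat.Agent.S41.Spec Fermat.Agent.S41.H761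
open Fermat.Agent.S59.TW.H653
open P2MW.S_ModularForm_heckeT_slash_eq_self_of_mem_Gamma0.ModularForm.HeckeSlashInvariance
open scoped MatrixGroups

variable {N q : ℕ} {K K' : Subgroup SL(2, ℤ)} {A : Type*} [AddCommGroup A]

section

variable (hK : IsMid N K) (hK' : IsMid (N * q) K')
  (hmem : ∀ k : SL(2, ℤ), k ∈ K → k ∈ Gamma0 (N * q) → k ∈ K')
  (hq : q ≠ 0) (c : K' →* K)
  (hcoe : ∀ k : K', ((c k : K) : SL(2, ℤ)) =
    ((conjDelta N q (Subgroup.inclusion hK'.le k) : Gamma0 N) : SL(2, ℤ)))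
include hq hcoe

omit hq in
theorem ιK_eq_of_coe (k : K') :
    ιK K (c k) = ιN N (conjDelta N q (Subgroup.inclusion hK'.le k)) := by
  rw [ιK_apply, hcoe k]
  rfl

/-- `δ k = c(k) δ`. -/
theorem hc_of_coe (k : K') :
    heckeDiagMatrix q * ιK K' k = ιK K (c k) * heckeDiagMatrix q := by
  rw [ιK_eq_of_coe hK' c hcoe k]
  exact diag_rel (N := N) hq (Subgroup.inclusion hK'.le k)

include hK hmem

/-- The range of `c` contains every `m ∈ K` with `q ∣ m₀₁`. -/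
theorem hrange_of_coe (m : K) (hm : (q : ℤ) ∣ (m : SL(2, ℤ)) 0 1) : m ∈ c.range := by
  obtain ⟨g, hg⟩ := (Fermat.Agent.S41.H105.mem_range_conjDelta_iff N hq (inclK hK m)).mpr hm
  have hgK : ((incl N q g : Gamma0 N) : SL(2, ℤ)) ∈ K := by
    refine hK.mem_of_dUnit_eq (k := inclK hK m) m.2 ?_
    rw [← hg]
    apply Units.ext
    rw [coe_dUnit, coe_dUnit]
    rfl
  have hgK' : (g : SL(2, ℤ)) ∈ K' := hmem _ hgK g.2
  refine ⟨⟨(g : SL(2, ℤ)), hgK'⟩, ?_⟩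
  apply Subtype.ext
  rw [hcoe]
  have : Subgroup.inclusion hK'.le (⟨(g : SL(2, ℤ)), hgK'⟩ : K') = g := Subtype.ext rfl
  rw [this, hg]
  rfl

/-- `T_ℓ r₂ = r₂ T_ℓ`. -/
theorem TK_r₂ {ℓ : ℕ} [Fact ℓ.Prime] (hℓ : ¬ ℓ ∣ N * q) (φ : Additive K →+ A) :
    TK (N * q) K' ℓ (φ.comp (MonoidHom.toAdditive c)) =
      (TK N K ℓ φ).comp (MonoidHom.toAdditive c) :=
  TK_comp_conj hK hK' hq c (hc_of_coe hK' hq c hcoe) (hrange_of_coe hK hK' hmem hq c hcoe) hℓ φ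

/-- `U_q' r₂ = r₂ U_q'`. -/
theorem UK_r₂ {q' : ℕ} [Fact q'.Prime] (hq' : q' ∣ N) (hcop : Nat.Coprime q' q)
    (φ : Additive K →+ A) :
    UK K' q' (φ.comp (MonoidHom.toAdditive c)) =
      (UK K q' φ).comp (MonoidHom.toAdditive c) :=
  UK_comp_conj hK hK' hq c (hc_of_coe hK' hq c hcoe) (hrange_of_coe hK hK' hmem hq c hcoe)
    hq' hcop φ

/-- `T_ℓ t₂ = t₂ T_ℓ`. -/
theorem TK_t₂ {ℓ : ℕ} [Fact ℓ.Prime] (hℓ : ¬ ℓ ∣ N * q) (ψ : Additive K' →+ A) :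
    TK N K ℓ (transferAlong c ψ) = transferAlong c (TK (N * q) K' ℓ ψ) :=
  TK_transferAlong_conj hK hK' hq c (hc_of_coe hK' hq c hcoe)
    (hrange_of_coe hK hK' hmem hq c hcoe) hℓ ψ

/-- `U_q' t₂ = t₂ U_q'`. -/
theorem UK_t₂ {q' : ℕ} [Fact q'.Prime] (hq' : q' ∣ N) (ψ : Additive K' →+ A) :
    UK K q' (transferAlong c ψ) = transferAlong c (UK K' q' ψ) :=
  UK_transferAlong_conj hK hK' hq c (hc_of_coe hK' hq c hcoe)
    (hrange_of_coe hK hK' hmem hq c hcoe) hq' ψ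

end

end Fermat.Agent.S59.TW.H653.Cross
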